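import Mathlib
import Fermat.Agent.LT.T6.H288.IndexSpec

/-!
# Row LT, tower T6, sub-leaf T6.12g.3 `ResFaithfulC` (helper400), OFF-MAIN

`k'/k` unramified cyclic of degree `l` with generator `s` (`IsLocalExt k k' l 1 i s`): for
`0 < m < l` the automorphism `s ^ m` is not the identity on the residue field of `k'`, in the
form: there is an integral `x` with `v (s^m x - x) = 1`.

Proof.  Put `τ = s ^ m`, `Q = q ^ l` (the cardinality of the residue field of `k'`), `ϖ` the
image of a uniformiser of `k` (a `τ`-fixed uniformiser of `k'`).  If `τ` were trivial on the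
residue field, then by induction on `n`: `v (τ x - x) ≤ exp (-n)` for all integral `x`.  Indeed
`x = x ^ Q - ϖ z` with `z` integral, `τ x - x = ((τ x) ^ Q - x ^ Q) - ϖ (τ z - z)`, and
`(τ x) ^ Q - x ^ Q = (τ x - x) · S` with `S ≡ Q x ^ (Q - 1) ≡ 0` modulo the maximal ideal.  Hence
`τ = 1` on the integers, hence on `k'`: a contradiction with the faithfulness of `s`.
-/

set_option autoImplicit false
set_option linter.style.haveILetI false

noncomputable section

namespace Fermat.Agent.LT.T6.H400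

open Fermat.Agent.LT.T6
open scoped Valued

section Residue

variable {k : Type} [Field k] [Valued k Γ₀]

/-- Membership in the maximal ideal of the valuation integers. -/
theorem mem_max_iff400 (x : 𝒪[k]) : x ∈ 𝓂[k] ↔ Valued.v (x : k) < 1 := by
  rw [Valued.maximalIdeal, IsLocalRing.mem_maximalIdeal, mem_nonunits_iff]
  exact Valuation.Integer.not_isUnit_iff_valuation_lt_one

/-- Equality in the residue field. -/
theorem residue_eq_iff400 (x y : 𝒪[k]) :
    IsLocalRing.residue 𝒪[k] x = IsLocalRing.residue 𝒪[k] y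
      ↔ Valued.v ((x : k) - (y : k)) < 1 := by
  rw [← sub_eq_zero, ← map_sub, IsLocalRing.residue_eq_zero_iff]
  exact mem_max_iff400 (x - y)

/-- The residue field of a local field with a residue system of `q` elements has `q`
elements. -/
theorem natCard_residue400 (q : ℕ) (h : IsLocalField k q) : Nat.card 𝓀[k] = q := by
  obtain ⟨T, hcard, hint, hdiff, hsurj⟩ := h.residue
  let f : T → 𝓀[k] := fun x =>
    IsLocalRing.residue 𝒪[k] ⟨x.1, (Valuation.mem_integer_iff _ _).2 (hint x.1 x.2)⟩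
  have hf : Function.Bijective f := by
    constructor
    · intro x y hxy
      by_contra hne
      have h1 : Valued.v ((x : k) - (y : k)) < 1 := (residue_eq_iff400 _ _).1 hxy
      have h2 := hdiff x.1 x.2 y.1 y.2 (fun e => hne (Subtype.ext e))
      rw [h2] at h1
      exact lt_irrefl _ h1
    · intro z
      obtain ⟨z, rfl⟩ := IsLocalRing.residue_surjective z
      obtain ⟨x, hx, hzx⟩ := hsurj (z : k) ((Valuation.mem_integer_iff _ _).1 z.2)
      refine ⟨⟨x, hx⟩, ?_⟩
      refine (residue_eq_iff400 _ _).2 ?_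
      show Valued.v (x - (z : k)) < 1
      rw [Valuation.map_sub_swap]
      exact hzx
  rw [← Nat.card_eq_of_bijective f hf, Nat.card_eq_fintype_card, Fintype.card_coe, hcard]

/-- The number of residue classes is positive. -/
theorem q_pos400 (q : ℕ) (h : IsLocalField k q) : 0 < q := by
  obtain ⟨T, hcard, -, -, hsurj⟩ := h.residue
  obtain ⟨x, hx, -⟩ := hsurj 0 (by simp)
  rw [← hcard]
  exact Finset.card_pos.2 ⟨x, hx⟩

/-- `x ^ q ≡ x` modulo the maximal ideal. -/
theorem pow_card_sub_lt400 (q : ℕ) (h : IsLocalField k q) (x : k) (hx : Valued.v x ≤ 1) :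
    Valued.v (x ^ q - x) < 1 := by
  have hq := natCard_residue400 q h
  haveI : Finite 𝓀[k] := Nat.finite_of_card_ne_zero (by rw [hq]; exact (q_pos400 q h).ne')
  letI : Fintype 𝓀[k] := Fintype.ofFinite _
  have hq' : Fintype.card 𝓀[k] = q := by rw [← Nat.card_eq_fintype_card, hq]
  let X : 𝒪[k] := ⟨x, (Valuation.mem_integer_iff _ _).2 hx⟩
  have h1 : IsLocalRing.residue 𝒪[k] (X ^ q) = IsLocalRing.residue 𝒪[k] X := by
    rw [map_pow, ← hq']
    exact FiniteField.pow_card _
  exact (residue_eq_iff400 (X ^ q) X).1 h1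

/-- `q ≡ 0` modulo the maximal ideal. -/
theorem natCast_card_lt400 (q : ℕ) (h : IsLocalField k q) : Valued.v ((q : ℕ) : k) < 1 := by
  have hq := natCard_residue400 q h
  haveI : Finite 𝓀[k] := Nat.finite_of_card_ne_zero (by rw [hq]; exact (q_pos400 q h).ne')
  letI : Fintype 𝓀[k] := Fintype.ofFinite _
  have hq' : Fintype.card 𝓀[k] = q := by rw [← Nat.card_eq_fintype_card, hq]
  have h1 : IsLocalRing.residue 𝒪[k] ((q : ℕ) : 𝒪[k]) = 0 := by
    rw [map_natCast, ← hq']
    exact FiniteField.cast_card_eq_zero _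
  have h2 := (mem_max_iff400 ((q : ℕ) : 𝒪[k])).1 ((IsLocalRing.residue_eq_zero_iff _).1 h1)
  simpa using h2

end Residue

section ValueGroup

/-- In `ℤᵐ⁰`: `a < 1` implies `a ≤ exp (-1)`. -/
theorem le_exp_neg_one_of_lt_one400 {a : Γ₀} (h : a < 1) : a ≤ WithZero.exp (-1 : ℤ) := by
  rcases eq_or_ne a 0 with rfl | ha
  · exact zero_le
  · rw [← WithZero.log_le_iff_le_exp ha]
    have h1 : WithZero.log a < 0 := by
      rw [WithZero.log_lt_iff_lt_exp ha, WithZero.exp_zero]
      exact h
    omega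

/-- In `ℤᵐ⁰`: an element below every `exp (-(n+1))` is zero. -/
theorem eq_zero_of_forall_le_exp400 {a : Γ₀}
    (h : ∀ n : ℕ, a ≤ WithZero.exp (-((n : ℤ) + 1))) : a = 0 := by
  by_contra ha
  have h1 := h (WithZero.log a).natAbs
  rw [← WithZero.log_le_iff_le_exp ha] at h1
  omega

end ValueGroup

section Main

/-- Powers of a valuation-preserving automorphism preserve the valuation. -/
theorem val_pow400 {k' : Type} [Field k'] [Valued k' Γ₀] (s : k' ≃+* k') (hs : ∀ y : k', Valued.v (s y) = Valued.v y) (m : ℕ)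
    (y : k') : Valued.v ((s ^ m) y) = Valued.v y := by
  induction m generalizing y with
  | zero => simp
  | succ m ih =>
    rw [pow_succ]
    show Valued.v ((s ^ m) (s y)) = Valued.v y
    rw [ih, hs]

/-- Powers of an automorphism fixing the image of `i` fix the image of `i`. -/
theorem fix_pow400 {k k' : Type} [Field k] [Field k'] (i : k →+* k') (s : k' ≃+* k') (hs : ∀ x : k, s (i x) = i x) (m : ℕ)
    (x : k) : (s ^ m) (i x) = i x := by
  induction m with
  | zero => simp
  | succ m ih =>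
    rw [pow_succ]
    show (s ^ m) (s (i x)) = i x
    rw [hs, ih]

/-- The geometric sum `∑_{j<Q} a^j b^(Q-1-j)` lies in the maximal ideal when `a ≡ b` and `Q` is
the cardinality of the residue field. -/
theorem geom_lt400 {k' : Type} [Field k'] [Valued k' Γ₀] (Q : ℕ) (hk' : IsLocalField k' Q) (a b : k') (ha : Valued.v a ≤ 1)
    (hb : Valued.v b ≤ 1) (hab : Valued.v (a - b) < 1) :
    Valued.v (∑ j ∈ Finset.range Q, a ^ j * b ^ (Q - 1 - j)) < 1 := by
  have hq := natCard_residue400 Q hk'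
  haveI : Finite 𝓀[k'] := Nat.finite_of_card_ne_zero (by rw [hq]; exact (q_pos400 Q hk').ne')
  letI : Fintype 𝓀[k'] := Fintype.ofFinite _
  have hq' : Fintype.card 𝓀[k'] = Q := by rw [← Nat.card_eq_fintype_card, hq]
  let A : 𝒪[k'] := ⟨a, (Valuation.mem_integer_iff _ _).2 ha⟩
  let B : 𝒪[k'] := ⟨b, (Valuation.mem_integer_iff _ _).2 hb⟩
  have hAB : IsLocalRing.residue 𝒪[k'] A = IsLocalRing.residue 𝒪[k'] B :=
    (residue_eq_iff400 A B).2 hab
  have h1 : IsLocalRing.residue 𝒪[k'] (∑ j ∈ Finset.range Q, A ^ j * B ^ (Q - 1 - j)) = 0 := by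
    rw [map_sum]
    have h2 : ∀ j ∈ Finset.range Q,
        IsLocalRing.residue 𝒪[k'] (A ^ j * B ^ (Q - 1 - j))
          = (IsLocalRing.residue 𝒪[k'] B) ^ (Q - 1) := by
      intro j hj
      rw [map_mul, map_pow, map_pow, hAB, ← pow_add]
      congr 1
      have := Finset.mem_range.1 hj
      omega
    rw [Finset.sum_congr rfl h2, Finset.sum_const, Finset.card_range, nsmul_eq_mul]
    have h3 : ((Q : ℕ) : 𝓀[k']) = 0 := by
      rw [← hq']
      exact FiniteField.cast_card_eq_zero _
    rw [h3, zero_mul]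
  have h4 := (mem_max_iff400 _).1 ((IsLocalRing.residue_eq_zero_iff _).1 h1)
  have h5 : ((∑ j ∈ Finset.range Q, A ^ j * B ^ (Q - 1 - j) : 𝒪[k']) : k')
      = ∑ j ∈ Finset.range Q, a ^ j * b ^ (Q - 1 - j) := by
    push_cast
    rfl
  rw [h5] at h4
  exact h4

/-- **T6.12g.3 (residual faithfulness).** -/
theorem resFaithful400 : H288.ResFaithfulC := by
  intro k k' _ _ _ _ q l i s hk hk' hext m hm0 hml
  by_contra hcon
  push Not at hcon
  have hτv : ∀ y : k', Valued.v ((s ^ m) y) = Valued.v y := val_pow400 s hext.val_s m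
  have hτi : ∀ x : k, (s ^ m) (i x) = i x := fix_pow400 i s hext.cyc.fix_i m
  obtain ⟨ϖ₀, hϖ₀⟩ := hk.unif
  have hϖv : Valued.v (i ϖ₀) = WithZero.exp (-1 : ℤ) := by
    rw [hext.val_i, pow_one, hϖ₀]
  have hϖne : i ϖ₀ ≠ 0 := by
    intro h0
    rw [h0, Valuation.map_zero] at hϖv
    exact WithZero.exp_ne_zero hϖv.symm
  have hτϖ : (s ^ m) (i ϖ₀) = i ϖ₀ := hτi ϖ₀
  -- the automorphism is trivial on the residue field
  have P0 : ∀ x : k', Valued.v x ≤ 1 → Valued.v ((s ^ m) x - x) < 1 := by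
    intro x hx
    refine lt_of_le_of_ne ?_ (hcon x hx)
    refine Valuation.map_sub_le _ ?_ hx
    rw [hτv]
    exact hx
  -- induction
  have key : ∀ n : ℕ, ∀ x : k', Valued.v x ≤ 1 →
      Valued.v ((s ^ m) x - x) ≤ WithZero.exp (-((n : ℤ) + 1)) := by
    intro n
    induction n with
    | zero =>
      intro x hx
      simpa using le_exp_neg_one_of_lt_one400 (P0 x hx)
    | succ n ih =>
      intro x hx
      have hτx : Valued.v ((s ^ m) x) ≤ 1 := by rw [hτv]; exact hx
      have hxQ : Valued.v (x ^ (q ^ l) - x) ≤ WithZero.exp (-1 : ℤ) :=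
        le_exp_neg_one_of_lt_one400 (pow_card_sub_lt400 (q ^ l) hk' x hx)
      -- z = (x ^ Q - x) / ϖ
      set z : k' := (x ^ (q ^ l) - x) / i ϖ₀ with hz
      have hzv : Valued.v z ≤ 1 := by
        rw [hz, map_div₀, hϖv]
        rw [div_le_iff₀ (by simp [WithZero.exp_ne_zero, zero_lt_iff]), one_mul]
        exact hxQ
      have hϖz : i ϖ₀ * z = x ^ (q ^ l) - x := by
        rw [hz]; field_simp
      have hτz : i ϖ₀ * (s ^ m) z = ((s ^ m) x) ^ (q ^ l) - (s ^ m) x := by
        have := congrArg (s ^ m) hϖz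
        rw [map_mul, hτϖ, map_sub, map_pow] at this
        exact this
      have hdiff : (s ^ m) x - x
          = (((s ^ m) x) ^ (q ^ l) - x ^ (q ^ l)) - i ϖ₀ * ((s ^ m) z - z) := by
        rw [mul_sub, hτz, hϖz]; ring
      have h1 : Valued.v (i ϖ₀ * ((s ^ m) z - z)) ≤ WithZero.exp (-(((n + 1 : ℕ) : ℤ) + 1)) := by
        rw [map_mul, hϖv]
        calc WithZero.exp (-1 : ℤ) * Valued.v ((s ^ m) z - z)
            ≤ WithZero.exp (-1 : ℤ) * WithZero.exp (-((n : ℤ) + 1)) :=
              mul_le_mul' le_rfl (ih z hzv)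
          _ = WithZero.exp (-(((n + 1 : ℕ) : ℤ) + 1)) := by
              rw [← WithZero.exp_add]; congr 1; push_cast; ring
      have h2 : Valued.v (((s ^ m) x) ^ (q ^ l) - x ^ (q ^ l))
          ≤ WithZero.exp (-(((n + 1 : ℕ) : ℤ) + 1)) := by
        rw [← geom_sum₂_mul, map_mul]
        calc Valued.v (∑ j ∈ Finset.range (q ^ l), ((s ^ m) x) ^ j * x ^ (q ^ l - 1 - j))
              * Valued.v ((s ^ m) x - x)
            ≤ WithZero.exp (-1 : ℤ) * WithZero.exp (-((n : ℤ) + 1)) :=
              mul_le_mul' (le_exp_neg_one_of_lt_one400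
                (geom_lt400 (q ^ l) hk' _ _ hτx hx (P0 x hx))) (ih x hx)
          _ = WithZero.exp (-(((n + 1 : ℕ) : ℤ) + 1)) := by
              rw [← WithZero.exp_add]; congr 1; push_cast; ring
      rw [hdiff]
      exact Valuation.map_sub_le _ h2 h1
  -- so the automorphism is trivial on the integers
  have htriv : ∀ x : k', Valued.v x ≤ 1 → (s ^ m) x = x := by
    intro x hx
    have h0 : Valued.v ((s ^ m) x - x) = 0 :=
      eq_zero_of_forall_le_exp400 (fun n => key n x hx)
    rw [Valuation.zero_iff] at h0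
    exact sub_eq_zero.1 h0
  -- hence on `k'`
  obtain ⟨y, hy⟩ := hext.cyc.faithful m hm0 hml
  apply hy
  rcases eq_or_ne y 0 with rfl | hy0
  · simp
  have hvy : Valued.v y ≠ 0 := (Valuation.ne_zero_iff _).2 hy0
  set N : ℕ := (WithZero.log (Valued.v y)).toNat with hN
  have hint : Valued.v (i ϖ₀ ^ N * y) ≤ 1 := by
    rw [map_mul, map_pow, hϖv, ← WithZero.exp_log hvy, ← WithZero.exp_nsmul, ← WithZero.exp_add,
      ← WithZero.exp_zero, WithZero.exp_le_exp]
    have : (0 : ℤ) ≤ (N : ℤ) ∧ WithZero.log (Valued.v y) ≤ (N : ℤ) := by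
      rw [hN]; omega
    simp only [nsmul_eq_mul]
    nlinarith [this.1, this.2]
  have h3 := htriv _ hint
  rw [map_mul, map_pow, hτϖ] at h3
  exact mul_left_cancel₀ (pow_ne_zero N hϖne) h3

end Main

end Fermat.Agent.LT.T6.H400

end
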